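import Fermat.Agent.H52.SS.JInterfaces
import Fermat.Agent.H35.SS2.InvRed

/-!
# P-SS2 row 1056 (SS2-J6 BRIDGE), helper24

The function-field contracts (KC-FF) `Fermat.Agent.H11.SS2.NewInvariantFFStatement L q` and
(KT-FF) `Fermat.Agent.H52.SS.KTFnStatement L q` imply the torsion statements (KC)_J, (KT)_J at
the SAME level:

* `bridgeKC : Fermat.Agent.H52.SS.BridgeKCStatement`;
* `bridgeKT : Fermat.Agent.H52.SS.BridgeKTStatement`.

Bookkeeping: `IsRootDatum m f D` says `f ≠ 0` and `div f = m D` (`D` of degree zero).  It is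
stable under semilinear automorphisms, powers and quotients, hence under the operators
`ktQuot` / `ktQuotAdd` and `ktTheta` / `ktThetaAdd`.  If `w ^ m = f ^ d` then `d [D] = 0`
(`IsRootDatum.nsmul_mk_eq_zero`), and if the push-forward of `[D]` along a finite map vanishes
then the norm of `f` is an `m`-th power (`exists_pow_eq_norm`; norm formula, constants are
`m`-th powers).
-/

set_option autoImplicit false
set_option linter.style.haveILetI false
set_option linter.unusedSectionVars false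
set_option linter.unusedVariables false

noncomputable section

namespace Fermat.Agent.H24.SS2

open AlgebraicCurve ModularCurve

section Generic

variable {K F : Type*} [Field K] [Field F] [Algebra K F]

/-- `f ≠ 0` and `div f = m D`. -/
def IsRootDatum (m : ℕ) (f : F) (D : Divisor.degZero (K := K) (F := F)) : Prop :=
  f ≠ 0 ∧ ∀ v : Place K F, v.ord f = (m : ℤ) * (D : Divisor K F) v

theorem IsRootDatum.smul {m : ℕ} {f : F} {D : Divisor.degZero (K := K) (F := F)}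
    (h : IsRootDatum m f D) (g : SemilinearAut K F) :
    IsRootDatum m (g • f) (SemilinearAut.degZeroSMulHom g D) := by
  refine ⟨(smul_ne_zero_iff_ne g).mpr h.1, fun v => ?_⟩
  rw [SemilinearAut.coe_degZeroSMulHom, SemilinearAut.divisor_smul_apply, ← h.2]
  have h1 := SemilinearAut.ord_smul g (g⁻¹ • v) f
  rwa [smul_inv_smul] at h1

theorem coe_nsmul_apply (k : ℕ) (D : Divisor.degZero (K := K) (F := F)) (v : Place K F) :
    ((k • D : Divisor.degZero (K := K) (F := F)) : Divisor K F) v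
      = (k : ℤ) * (D : Divisor K F) v := by
  rw [AddSubgroup.coe_nsmul, Finsupp.smul_apply, nsmul_eq_mul]

theorem IsRootDatum.pow {m : ℕ} {f : F} {D : Divisor.degZero (K := K) (F := F)}
    (h : IsRootDatum m f D) (k : ℕ) : IsRootDatum m (f ^ k) (k • D) := by
  refine ⟨pow_ne_zero k h.1, fun v => ?_⟩
  rw [Fermat.Agent.H35.SS2.ss2_ord_pow, h.2, coe_nsmul_apply]
  ring

theorem IsRootDatum.div {m : ℕ} {f₁ f₂ : F} {D₁ D₂ : Divisor.degZero (K := K) (F := F)}
    (h₁ : IsRootDatum m f₁ D₁) (h₂ : IsRootDatum m f₂ D₂) :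
    IsRootDatum m (f₁ / f₂) (D₁ - D₂) := by
  refine ⟨div_ne_zero h₁.1 h₂.1, fun v => ?_⟩
  rw [div_eq_mul_inv, v.ord_mul h₁.1 (inv_ne_zero h₂.1), v.ord_inv, h₁.2, h₂.2,
    AddSubgroup.coe_sub, Finsupp.sub_apply]
  ring

theorem IsRootDatum.ktQuot {m : ℕ} {f : F} {D : Divisor.degZero (K := K) (F := F)}
    (h : IsRootDatum m f D) (ψF : F → F)
    (ψD : Divisor.degZero (K := K) (F := F) → Divisor.degZero (K := K) (F := F))
    (hψ : ∀ (f : F) (D : Divisor.degZero (K := K) (F := F)),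
      IsRootDatum m f D → IsRootDatum m (ψF f) (ψD D)) (k : ℕ) :
    IsRootDatum m (Fermat.Agent.H55.SS.ktQuot ψF k f)
      (Fermat.Agent.H52.SS.ktQuotAdd ψD k D) :=
  (hψ f D h).div (h.pow k)

theorem IsRootDatum.ktTheta {m : ℕ} {f : F} {D : Divisor.degZero (K := K) (F := F)}
    (h : IsRootDatum m f D) (ψF : F → F)
    (ψD : Divisor.degZero (K := K) (F := F) → Divisor.degZero (K := K) (F := F))
    (hψ : ∀ (f : F) (D : Divisor.degZero (K := K) (F := F)),
      IsRootDatum m f D → IsRootDatum m (ψF f) (ψD D)) (Q : ℕ) :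
    IsRootDatum m (Fermat.Agent.H55.SS.ktTheta ψF Q f)
      (Fermat.Agent.H52.SS.ktThetaAdd ψD Q D) :=
  (((h.ktQuot ψF ψD hψ 1).ktQuot ψF ψD hψ 1).ktQuot ψF ψD hψ Q).ktQuot ψF ψD hψ Q

/-- If `div f = m D` and `w ^ m = f ^ d`, then `d [D] = 0`. -/
theorem IsRootDatum.nsmul_mk_eq_zero {m : ℕ} (hm : 0 < m) {f : F}
    {D : Divisor.degZero (K := K) (F := F)} (h : IsRootDatum m f D) (d : ℕ) (w : F)
    (hw : w ^ m = f ^ d) : d • (Pic0.mk D : Pic0 K F) = 0 := by
  have hm0 : (m : ℤ) ≠ 0 := Int.natCast_ne_zero.mpr hm.ne'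
  have hw0 : w ≠ 0 := by
    rintro rfl
    rw [zero_pow hm.ne'] at hw
    exact pow_ne_zero d h.1 hw.symm
  have h1 : Pic0.mk (d • D) = d • (Pic0.mk D : Pic0 K F) :=
    map_nsmul (QuotientAddGroup.mk' _) d D
  rw [← h1, Fermat.Agent.H53.pic0_mk_eq_zero_iff]
  refine ⟨w, hw0, fun v => ?_⟩
  have h2 : (m : ℤ) * v.ord w = (m : ℤ) * ((d : ℤ) * (D : Divisor K F) v) := by
    rw [← Fermat.Agent.H35.SS2.ss2_ord_pow, hw, Fermat.Agent.H35.SS2.ss2_ord_pow, h.2]
    ring
  rw [coe_nsmul_apply, mul_left_cancel₀ hm0 h2]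

theorem ktQuotAdd_mk (ψJ : Pic0 K F → Pic0 K F)
    (ψD : Divisor.degZero (K := K) (F := F) → Divisor.degZero (K := K) (F := F))
    (hψ : ∀ D : Divisor.degZero (K := K) (F := F), ψJ (Pic0.mk D) = Pic0.mk (ψD D))
    (k : ℕ) (D : Divisor.degZero (K := K) (F := F)) :
    Fermat.Agent.H52.SS.ktQuotAdd ψJ k (Pic0.mk D)
      = Pic0.mk (Fermat.Agent.H52.SS.ktQuotAdd ψD k D) := by
  unfold Fermat.Agent.H52.SS.ktQuotAdd
  rw [hψ]
  have h1 : (Pic0.mk (ψD D - k • D) : Pic0 K F) = Pic0.mk (ψD D) - Pic0.mk (k • D) :=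
    map_sub (QuotientAddGroup.mk' _) (ψD D) (k • D)
  have h2 : (Pic0.mk (k • D) : Pic0 K F) = k • Pic0.mk D :=
    map_nsmul (QuotientAddGroup.mk' _) k D
  rw [h1, h2]

theorem ktThetaAdd_mk (ψJ : Pic0 K F → Pic0 K F)
    (ψD : Divisor.degZero (K := K) (F := F) → Divisor.degZero (K := K) (F := F))
    (hψ : ∀ D : Divisor.degZero (K := K) (F := F), ψJ (Pic0.mk D) = Pic0.mk (ψD D))
    (Q : ℕ) (D : Divisor.degZero (K := K) (F := F)) :
    Fermat.Agent.H52.SS.ktThetaAdd ψJ Q (Pic0.mk D)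
      = Pic0.mk (Fermat.Agent.H52.SS.ktThetaAdd ψD Q D) := by
  unfold Fermat.Agent.H52.SS.ktThetaAdd
  rw [ktQuotAdd_mk ψJ ψD hψ, ktQuotAdd_mk ψJ ψD hψ, ktQuotAdd_mk ψJ ψD hψ,
    ktQuotAdd_mk ψJ ψD hψ]

/-- If the push-forward of `[D]` along `φ` vanishes and `div f = m D`, the norm of `f` along `φ`
is an `m`-th power (the base field is algebraically closed). -/
theorem exists_pow_eq_norm [IsAlgClosed K] {F' : Type*} [Field F'] [Algebra K F']
    (φ : F →ₐ[K] F') (hφ : φ.toRingHom.IsIntegral) (hfin : FiniteAlong K φ)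
    (hN : NormFormulaAlong K φ hfin) (hRR : Fermat.Agent.H58.RRHyp K F)
    (m : ℕ) (hm : 0 < m) (f : F') (D : Divisor.degZero (K := K) (F := F'))
    (h : IsRootDatum m f D)
    (hpush : Fermat.Agent.H52.SS.pic0PushforwardAlong φ hφ hfin hN (Pic0.mk D) = 0) :
    ∃ h : F, h ^ m = Fermat.Agent.H11.SS2.ss2NormAlong φ f := by
  rw [Fermat.Agent.H52.SS.pic0PushforwardAlong_mk, Fermat.Agent.H53.pic0_mk_eq_zero_iff,
    Fermat.Agent.H52.SS.coe_degZeroPushforwardAlong] at hpush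
  obtain ⟨h₀, hh₀, hh₀D⟩ := hpush
  have hnf0 : Fermat.Agent.H11.SS2.ss2NormAlong φ f ≠ 0 := by
    letI := algebraAlong φ
    haveI : Module.Finite F F' := hfin
    exact Algebra.norm_ne_zero_iff.mpr h.1
  have hnorm : ∀ v : Place K F,
      v.ord (Fermat.Agent.H11.SS2.ss2NormAlong φ f) = (m : ℤ) * v.ord h₀ := by
    intro v
    rw [← hh₀D v]
    letI := algebraAlong φ
    haveI := isScalarTower_along φ
    haveI := isIntegral_along φ hφ
    haveI : Module.Finite F F' := hfin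
    have h1 : Divisor.pushforward F ((m : ℤ) • (D : Divisor K F')) v
        = v.ord (Algebra.norm F f) :=
      hN f h.1 ((m : ℤ) • (D : Divisor K F'))
        (fun w => by rw [Finsupp.smul_apply, smul_eq_mul, h.2]) v
    have h2 : Divisor.pushforward F ((m : ℤ) • (D : Divisor K F'))
        = (m : ℤ) • Divisor.pushforward F (D : Divisor K F') :=
      map_zsmul (Divisor.pushforward F) (m : ℤ) (D : Divisor K F')
    rw [h2, Finsupp.smul_apply, smul_eq_mul] at h1
    exact h1.symm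
  obtain ⟨c, hc0, hc⟩ := Fermat.Agent.H35.SS2.ss2_eq_const_mul hRR m (1 : F)
    (Fermat.Agent.H11.SS2.ss2NormAlong φ f) h₀⁻¹ one_ne_zero hnf0 (inv_ne_zero hh₀)
    (fun v => by rw [hnorm v, v.ord_one, v.ord_inv]; ring)
  obtain ⟨κ, hκ⟩ := IsAlgClosed.exists_pow_nat_eq c hm
  refine ⟨algebraMap K F κ * h₀, ?_⟩
  rw [mul_pow, ← map_pow, hκ]
  have h3 : Fermat.Agent.H11.SS2.ss2NormAlong φ f
      = algebraMap K F c * 1 * (h₀⁻¹ ^ m)⁻¹ := by
    rw [← hc, mul_assoc, mul_inv_cancel₀ (pow_ne_zero m (inv_ne_zero hh₀)), mul_one]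
  rw [h3, mul_one, inv_pow, inv_inv]

end Generic

/-! ## The modular Jacobian -/

section Modular

/-- The invariant datum of a torsion class of `J₀(N)`, in the form used below. -/
theorem exists_rootDatum (N : ℕ) [NeZero N] (m : ℕ) (x : JZero N) (hx : m • x = 0) :
    ∃ (f : modularFunctionFieldBar N)
      (D : Divisor.degZero (K := AlgebraicClosure ℚ) (F := modularFunctionFieldBar N)),
      Pic0.mk D = x ∧ IsRootDatum m f D ∧
      ∀ σ : AlgebraicClosure ℚ ≃ₐ[ℚ] AlgebraicClosure ℚ, σ • x = x →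
        arithmeticGalois (modularFunctionFieldFull N) σ • f = f := by
  have hx' : (m : ℤ) • x = 0 := by rw [natCast_zsmul, hx]
  obtain ⟨P₀, n, E, f, -, -, -, ⟨D, hDx, hED⟩, -, -, hf0, hdiv, hfix⟩ :=
    Fermat.Agent.H53.jZero_exists_invariant_datum N (m : ℤ) x hx'
  refine ⟨f, D, hDx, ⟨hf0, fun v => ?_⟩, fun σ hσ => (hfix σ hσ).2⟩
  rw [hdiv v, hED]
  simp

theorem not_dvd_pow_of_ne {p q : ℕ} (hp : p.Prime) (hq : q.Prime) (hpq : p ≠ q) (k : ℕ) :
    ¬ q ∣ p ^ k := fun h =>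
  hpq ((Nat.prime_dvd_prime_iff_eq hq hp).mp (hq.dvd_of_dvd_pow h)).symm

/-- The common part of the two bridges: the hypotheses of the function-field contracts. -/
theorem bridge_hyps (L q : ℕ) [NeZero L] [NeZero q] (hq : q.Prime)
    (A : ValuationSubring (AlgebraicClosure ℚ)) (m : ℕ) (hm : 0 < m)
    (x : JZero (L * q)) (hx : m • x = 0)
    (hA : Fermat.Agent.H52.SS.jPushA L q hq x = 0)
    (hB : Fermat.Agent.H52.SS.jPushB L q hq x = 0)
    (hI : ∀ τ ∈ A.inertiaSubgroupIn ℚ, τ • x = x) :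
    ∃ (f : modularFunctionFieldBar (L * q))
      (D : Divisor.degZero (K := AlgebraicClosure ℚ) (F := modularFunctionFieldBar (L * q))),
      Pic0.mk D = x ∧ IsRootDatum m f D ∧
      (∀ P : Place (AlgebraicClosure ℚ) (modularFunctionFieldBar (L * q)),
        (m : ℤ) ∣ P.ord f) ∧
      (∀ σ ∈ A.inertiaSubgroupIn ℚ, ∃ w : modularFunctionFieldBar (L * q),
        w ^ m * f = arithmeticGalois (modularFunctionFieldFull (L * q)) σ • f) ∧
      (∃ h : modularFunctionFieldBar L,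
        h ^ m = Fermat.Agent.H11.SS2.ss2NormAlong
          (heckeAlphaBar (AlgebraicClosure ℚ) L q) f) ∧
      (∃ h : modularFunctionFieldBar L,
        h ^ m = Fermat.Agent.H11.SS2.ss2NormAlong
          (heckeBetaBar (AlgebraicClosure ℚ) L q) f) := by
  obtain ⟨f, D, hDx, hfD, hfix⟩ := exists_rootDatum (L * q) m x hx
  subst hDx
  have hRR := Fermat.Agent.H58.rrHyp_modularFunctionFieldBar L
  refine ⟨f, D, rfl, hfD, fun P => ⟨_, hfD.2 P⟩, fun σ hσ => ⟨1, ?_⟩, ?_, ?_⟩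
  · rw [one_pow, one_mul, hfix σ (hI σ hσ)]
  · exact exists_pow_eq_norm (heckeAlphaBar (AlgebraicClosure ℚ) L q) _ _ _ hRR m hm f D hfD hA
  · exact exists_pow_eq_norm (heckeBetaBar (AlgebraicClosure ℚ) L q) _ _ _ hRR m hm f D hfD hB

/-- **(J6) BRIDGE, (KC).** -/
theorem bridgeKC : Fermat.Agent.H52.SS.BridgeKCStatement := by
  intro L q _ _ hq hFF p hp hpq A hA
  obtain ⟨c, hc, hFFc⟩ := hFF A hA
  refine ⟨c, hc.ne', ?_⟩
  rintro x ⟨k, hk⟩ hxA hxB hI
  have hm : 0 < p ^ k := pow_pos hp.pos k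
  obtain ⟨f, D, rfl, hfD, h1, h2, h3, h4⟩ :=
    bridge_hyps L q hq A (p ^ k) hm x hk hxA hxB hI
  obtain ⟨w, hw⟩ := hFFc (p ^ k) hm (not_dvd_pow_of_ne hp hq hpq k) f hfD.1 h1 h2 h3 h4
  exact hfD.nsmul_mk_eq_zero hm c w hw

/-- **(J6) BRIDGE, (KT).** -/
theorem bridgeKT : Fermat.Agent.H52.SS.BridgeKTStatement := by
  intro L q _ _ hq hFF p hp hpq A hA φ hφ
  obtain ⟨d, hd, hFFd⟩ := hFF A hA φ hφ
  refine ⟨d, hd.ne', ?_⟩
  rintro x ⟨k, hk⟩ hxA hxB hI
  have hm : 0 < p ^ k := pow_pos hp.pos k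
  obtain ⟨f, D, rfl, hfD, h1, h2, h3, h4⟩ :=
    bridge_hyps L q hq A (p ^ k) hm x hk hxA hxB hI
  obtain ⟨w, hw⟩ := hFFd (p ^ k) hm (not_dvd_pow_of_ne hp hq hpq k) f hfD.1 h1 h2 h3 h4
  have hΘ := hfD.ktTheta
    (fun g : modularFunctionFieldBar (L * q) =>
      arithmeticGalois (modularFunctionFieldFull (L * q)) φ •
        arithmeticGalois (modularFunctionFieldFull (L * q)) φ • g)
    (fun E => SemilinearAut.degZeroSMulHom (arithmeticGalois (modularFunctionFieldFull (L * q)) φ)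
      (SemilinearAut.degZeroSMulHom (arithmeticGalois (modularFunctionFieldFull (L * q)) φ) E))
    (fun f' D' h' => (h'.smul _).smul _) (q ^ 2)
  have h5 := hΘ.nsmul_mk_eq_zero hm d w hw
  have h6 := ktThetaAdd_mk (fun y : JZero (L * q) => φ • φ • y)
    (fun E => SemilinearAut.degZeroSMulHom (arithmeticGalois (modularFunctionFieldFull (L * q)) φ)
      (SemilinearAut.degZeroSMulHom (arithmeticGalois (modularFunctionFieldFull (L * q)) φ) E))
    (fun E => rfl) (q ^ 2) D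
  rw [h6]
  exact h5

end Modular

end Fermat.Agent.H24.SS2
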